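/-
S28 (Igusa), wiring node (8b-iii): the modular polynomial over `ℤ_(ℓ)`.

From an Igusa datum `D` over a subring `R₀ ⊆ ℂ` (with `R₀ ≤ Rl ℓ`, the `ℓ`-integral algebraic
numbers) we extract: `Φc = D.Φ` mapped to `ℂ` is monic of degree `card D.ι`, kills `j(q^N)` at
`Z = j(q)`, and (given that it has rational coefficients, node (8b-ii)) descends to a monic
polynomial over `ℤ_(ℓ)[Z]` of the same degree killing `j(q^N) ∈ ℚ((q))`.
-/
import Mathlib
import Fermat.Agent.S28.Wiring.HC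
import Fermat.Agent.S28.Bridge.Descent
import Fermat.Prelude.Def_GaloisRep_Flat

set_option autoImplicit false

open ModularCurve Polynomial

namespace Fermat.Agent.S28

section evalJ

variable {K : Type*} [Field K] {N : ℕ} [NeZero N]

/-- evaluation `K[Z] → K((q))`, `Z ↦ j(q)` -/
noncomputable def wr_evalJq (R : Type*) [CommRing R] : Polynomial R →+* LaurentSeries R :=
  Polynomial.eval₂RingHom HahnSeries.C (jqModC R)

theorem wr_evalJ_eq_comp (R : Type*) [CommRing R] (N : ℕ) [NeZero N] :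
    fs_evalJ R N = (qExpand R N).comp (wr_evalJq R) := by
  refine Polynomial.ringHom_ext (fun c => ?_) ?_
  · simp only [fs_evalJ, wr_evalJq, RingHom.comp_apply, coe_eval₂RingHom, eval₂_C, qExpand_C]
  · simp only [fs_evalJ, wr_evalJq, RingHom.comp_apply, coe_eval₂RingHom, eval₂_X, fs_jT]

theorem wr_coeffMap_comp_evalJq {R S : Type*} [CommRing R] [CommRing S] (φ : R →+* S) :
    (coeffMap φ).comp (wr_evalJq R) = (wr_evalJq S).comp (Polynomial.mapRingHom φ) := by
  refine Polynomial.ringHom_ext (fun r => ?_) ?_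
  · simp only [RingHom.comp_apply, wr_evalJq, coe_eval₂RingHom, eval₂_C, coe_mapRingHom, map_C]
    exact fs_coeffMap_C φ r
  · simp only [RingHom.comp_apply, wr_evalJq, coe_eval₂RingHom, eval₂_X, coe_mapRingHom, map_X]
    exact fs_coeffMap_jqModC φ

end evalJ

namespace IgDatum

variable {K : Type*} [Field K] {ζ : Kˣ} {N : ℕ} [NeZero N] (D : IgDatum K ζ N)

theorem wr_Φ_monic : D.Φ.Monic := by
  apply Polynomial.monic_of_injective (nm_evalJ_injective (K := K) (N := N))
  rw [D.Φ_eq]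
  exact monic_prod_of_monic _ _ fun x _ => monic_X_sub_C _

theorem wr_Φ_natDegree : D.Φ.natDegree = Fintype.card D.ι := by
  have h := congrArg natDegree D.Φ_eq
  rw [natDegree_map_eq_of_injective (nm_evalJ_injective (K := K) (N := N)),
    natDegree_prod_of_monic _ _ fun x _ => monic_X_sub_C _] at h
  simpa using h

/-- `Φ(j(q), j(q^N)) = 0` in `K((q))` -/
theorem wr_Φ_root : D.Φ.eval₂ (wr_evalJq K) (qExpand K N (jqModC K)) = 0 := by
  have h1 : (D.Φ.map (fs_evalJ K N)).eval (D.y D.x₀) = 0 := by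
    rw [D.Φ_eq, eval_prod]
    exact Finset.prod_eq_zero (Finset.mem_univ D.x₀)
      (by rw [eval_sub, eval_X, eval_C]; exact sub_self _)
  rw [eval_map, wr_evalJ_eq_comp, D.nm_y_x₀, ← Polynomial.hom_eval₂] at h1
  exact qExpand_injective N (by rw [h1, map_zero])

end IgDatum

/-- **(8b-iii)**: descent of the modular polynomial to `ℤ_(ℓ)`: if `Φc` (over `ℂ`) has all
coefficients in a subring `R₀ ≤ Rl ℓ`, is the image of a polynomial `P` over `ℚ`, is monic of
degree `n` and kills `j(q^N)`, then there is a monic `Φ` of degree `n` over `ℤ_(ℓ)[Z]` whose image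
over `ℚ` kills `j(q^N) ∈ ℚ((q))`. -/
theorem wr_descend_Zl {N ℓ : ℕ} [NeZero N] [Fact ℓ.Prime] {n : ℕ}
    (hmem : ∀ r : ℚ, (r : ℂ) ∈ Fermat.Agent.S16.Rl ℓ → r ∈ GaloisRep.ratLocalizedAt ℓ)
    (Φc : Polynomial (Polynomial ℂ)) (hcoeff : ∀ i k, (Φc.coeff i).coeff k ∈ Fermat.Agent.S16.Rl ℓ)
    (hmonic : Φc.Monic) (hdeg : Φc.natDegree = n)
    (hroot : Φc.eval₂ (wr_evalJq ℂ) (qExpand ℂ N (jqModC ℂ)) = 0)
    (P : Polynomial (Polynomial ℚ))
    (hP : P.map (Polynomial.mapRingHom (algebraMap ℚ ℂ)) = Φc) :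
    ∃ Φ : Polynomial (Polynomial ↥(GaloisRep.ratLocalizedAt ℓ)), Φ.Monic ∧ Φ.natDegree = n ∧
      (Φ.map (Polynomial.mapRingHom (GaloisRep.ratLocalizedAt ℓ).subtype)).eval₂
        (wr_evalJq ℚ) (qExpand ℚ N (jqModC ℚ)) = 0 := by
  have hinj : Function.Injective (Polynomial.mapRingHom (algebraMap ℚ ℂ)) :=
    Polynomial.map_injective _ (algebraMap ℚ ℂ).injective
  -- `P` is monic of degree `n` and kills `j(q^N)`
  have hPmonic : P.Monic := Polynomial.monic_of_injective hinj (by rw [hP]; exact hmonic)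
  have hPdeg : P.natDegree = n := by
    rw [← hdeg, ← hP, natDegree_map_eq_of_injective hinj]
  have hProot : P.eval₂ (wr_evalJq ℚ) (qExpand ℚ N (jqModC ℚ)) = 0 := by
    apply bd_coeffMap_injective (algebraMap ℚ ℂ).injective
    rw [map_zero, Polynomial.hom_eval₂, wr_coeffMap_comp_evalJq, fs_coeffMap_qExpand,
      fs_coeffMap_jqModC, ← Polynomial.eval₂_map, hP]
    exact hroot
  -- the coefficients of `P` lie in `ℤ_(ℓ)`
  have hPcoeff : ∀ i k, (P.coeff i).coeff k ∈ GaloisRep.ratLocalizedAt ℓ := by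
    intro i k
    apply hmem
    have := hcoeff i k
    rw [← hP, coeff_map, coe_mapRingHom, coeff_map] at this
    exact this
  have hlift : P ∈ Polynomial.lifts
      (Polynomial.mapRingHom (GaloisRep.ratLocalizedAt ℓ).subtype) := by
    rw [Polynomial.lifts_iff_coeff_lifts]
    intro i
    rw [coe_mapRingHom]
    change P.coeff i ∈ Polynomial.lifts (GaloisRep.ratLocalizedAt ℓ).subtype
    rw [Polynomial.lifts_iff_coeff_lifts]
    intro k
    exact ⟨⟨_, hPcoeff i k⟩, rfl⟩
  obtain ⟨Φ, hΦ, hΦdeg, hΦmonic⟩ := Polynomial.lifts_and_natDegree_eq_and_monic hlift hPmonic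
  refine ⟨Φ, hΦmonic, by rw [hΦdeg, hPdeg], ?_⟩
  rw [hΦ]
  exact hProot

end Fermat.Agent.S28
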