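/-
S28 (Igusa), wiring node (8d-1): all arithmetic inputs of the front end (W6) from ONE Igusa datum
over a subring `R₀ ≤ Rl ℓ` of `ℂ`:

`wr_inputs_of_datum` : a monic `Φ ∈ ℤ_(ℓ)[Z][X]` with `Φ(j(q), j(q^N)) = 0` in `ℚ((q))` such that
`1, j̄(q^N), …, j̄(q^N)^(deg Φ - 1)` are linearly independent over `𝔽_ℓ[j̄(q)]` in `𝔽_ℓ((q))`.
-/
import Mathlib
import Fermat.Agent.S28.Wiring.HP

set_option autoImplicit false

open ModularCurve Polynomial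

namespace Fermat.Agent.S28

/-- the evaluation map of the front-end interface is `wr_evalJq ℚ` after coefficient extension -/
theorem wr_evalZl_eq (ℓ : ℕ) :
    Polynomial.eval₂RingHom ((HahnSeries.C : ℚ →+* LaurentSeries ℚ).comp
        (algebraMap ↥(GaloisRep.ratLocalizedAt ℓ) ℚ)) ModularCurve.jq =
      (wr_evalJq ℚ).comp (Polynomial.mapRingHom (GaloisRep.ratLocalizedAt ℓ).subtype) := by
  refine Polynomial.ringHom_ext (fun c => ?_) ?_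
  · simp only [wr_evalJq, RingHom.comp_apply, coe_eval₂RingHom, eval₂_C, coe_mapRingHom, map_C]
    rfl
  · simp only [wr_evalJq, RingHom.comp_apply, coe_eval₂RingHom, eval₂_X, coe_mapRingHom, map_X]
    rfl

/-- **all inputs of the front end from one datum** (the rationality of `Φ` is taken as a
hypothesis `hrat`, node (8b-ii)). -/
theorem wr_inputs_of_datum {N ℓ : ℕ} [NeZero N] [Fact ℓ.Prime] (hℓN : ¬ ℓ ∣ N)
    {R₀ : Subring ℂ} (hR₀ : R₀ ≤ Fermat.Agent.S16.Rl ℓ) {ζ : (↥R₀)ˣ} (hζ : IsPrimitiveRoot ζ N)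
    (D : IgDatum ↥R₀ ζ N)
    (hrat : ∀ (Φc : Polynomial (Polynomial ℂ)), Φc.Monic → Φc.natDegree = Fintype.card D.ι →
      Φc.eval₂ (Polynomial.eval₂RingHom HahnSeries.C (jqModC ℂ)) (qExpand ℂ N (jqModC ℂ)) = 0 →
      bd_PolyIndep ℂ (jqModC ℂ) (qExpand ℂ N (jqModC ℂ)) (Fintype.card D.ι) →
      ∃ P : Polynomial (Polynomial ℚ), P.map (Polynomial.mapRingHom (algebraMap ℚ ℂ)) = Φc) :
    ∃ Φ : Polynomial (Polynomial ↥(GaloisRep.ratLocalizedAt ℓ)), Φ.Monic ∧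
      Φ.eval₂ (Polynomial.eval₂RingHom ((HahnSeries.C : ℚ →+* LaurentSeries ℚ).comp
        (algebraMap ↥(GaloisRep.ratLocalizedAt ℓ) ℚ)) ModularCurve.jq) (ModularCurve.jqN N) = 0 ∧
      bd_PolyIndep (ZMod ℓ) (jqModC (ZMod ℓ)) (qExpand (ZMod ℓ) N (jqModC (ZMod ℓ)))
        Φ.natDegree := by
  -- the datum over `ℂ`
  set Dc := D.map R₀.subtype with hDc
  have hζc : IsPrimitiveRoot (Units.map (R₀.subtype : ↥R₀ →* ℂ) ζ) N := by
    have : NeZero ((N : ℕ) : ℂ) := ⟨by exact_mod_cast NeZero.ne N⟩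
    exact wr_isPrimitiveRoot_unitsMap R₀.subtype hζ
  have hcard : Fintype.card Dc.ι = Fintype.card D.ι := rfl
  obtain ⟨P, hP⟩ := hrat Dc.Φ Dc.wr_Φ_monic Dc.wr_Φ_natDegree Dc.wr_Φ_root (Dc.nm_indep_q hζc)
  -- coefficients of `Dc.Φ` lie in `R₀ ≤ Rl ℓ`
  have hcoeff : ∀ i k, (Dc.Φ.coeff i).coeff k ∈ Fermat.Agent.S16.Rl ℓ := by
    intro i k
    have : (Dc.Φ.coeff i).coeff k = R₀.subtype ((D.Φ.coeff i).coeff k) := by
      show ((D.Φ.map (Polynomial.mapRingHom R₀.subtype)).coeff i).coeff k = _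
      rw [coeff_map, coe_mapRingHom, coeff_map]
    rw [this]
    exact hR₀ (Subtype.property _)
  obtain ⟨Φ, hΦm, hΦd, hΦ0⟩ := wr_descend_Zl (N := N) (ℓ := ℓ) (fun r hr => rh_rat_mem r hr)
    Dc.Φ hcoeff Dc.wr_Φ_monic Dc.wr_Φ_natDegree Dc.wr_Φ_root P hP
  refine ⟨Φ, hΦm, ?_, ?_⟩
  · rw [wr_evalZl_eq, ← Polynomial.eval₂_map]
    exact hΦ0
  · -- (HC) via a reduction homomorphism `R₀ → 𝔽̄_ℓ`
    obtain ⟨ρ⟩ := rh_exists_hom_of_le ℓ (AlgebraicClosure (ZMod ℓ)) R₀ hR₀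
    rw [hΦd, hcard]
    exact wr_HC (K := AlgebraicClosure (ZMod ℓ)) hℓN hζ D ρ

end Fermat.Agent.S28
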