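/-
S28 (Igusa), wiring node (8d-2): the inputs of the front end, unconditionally:
`wr_inputs N ℓ hℓN` = a monic `Φ ∈ ℤ_(ℓ)[Z][X]` with `Φ(j(q), j(q^N)) = 0` in `ℚ((q))` and the
independence (HC) over `ZMod ℓ` for `n = deg Φ`.  Assembled from the analytic datum `sy_datum0 N`
(W2), the norm argument (W4), the reduction homomorphism (RH) and the rationality of `Φ` (8b).
-/
import Mathlib
import Fermat.Agent.S28.Wiring.Inputs
import Fermat.Agent.S28.Wiring.RatPoly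
import Fermat.Agent.S28.Sym.Datum

set_option autoImplicit false

open ModularCurve Polynomial

namespace Fermat.Agent.S28

open Fermat.Agent.S24 in
theorem wr_R0_le (N ℓ : ℕ) [NeZero N] [hℓ : Fact ℓ.Prime] (hℓN : ¬ ℓ ∣ N) :
    sy_R0 N ≤ Fermat.Agent.S16.Rl ℓ :=
  rh_closure_le (Nat.pos_of_ne_zero (NeZero.ne N)) hℓ.out hℓN (fi_zeta_isPrimitiveRoot N).pow_eq_one

/-- **the inputs (HP') and (HC) of the front end** -/
theorem wr_inputs (N ℓ : ℕ) [NeZero N] [Fact ℓ.Prime] (hℓN : ¬ ℓ ∣ N) :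
    ∃ Φ : Polynomial (Polynomial ↥(GaloisRep.ratLocalizedAt ℓ)), Φ.Monic ∧
      Φ.eval₂ (Polynomial.eval₂RingHom ((HahnSeries.C : ℚ →+* LaurentSeries ℚ).comp
        (algebraMap ↥(GaloisRep.ratLocalizedAt ℓ) ℚ)) ModularCurve.jq) (ModularCurve.jqN N) = 0 ∧
      bd_PolyIndep (ZMod ℓ) (jqModC (ZMod ℓ)) (qExpand (ZMod ℓ) N (jqModC (ZMod ℓ)))
        Φ.natDegree :=
  wr_inputs_of_datum hℓN (wr_R0_le N ℓ hℓN) (sy_zeta_isPrimitiveRoot N) (sy_datum0 N)
    (fun Φc hm hd hr hi => wr_exists_rat_poly Φc hm hd hr hi)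

end Fermat.Agent.S28
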