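/-
S28 (Igusa), wiring node (8c) (helper5): `(HG) = ModularCurve.FunctionFieldGeneration N`.
It is proved UNCONDITIONALLY in `Bridge/Generation.lean` (`bd_functionFieldGeneration`); this file
only records it in the shape of the architect's assignment #759 (the hypothesis `hind` is not
needed, it is `bd_polyIndep_rat N`), plus the complex form of the independence statement that the
rationality node (8b-ii) consumes.
-/
import Mathlib
import Fermat.Agent.S28.Bridge.Generation

set_option autoImplicit false

open ModularCurve Polynomial

namespace Fermat.Agent.S28

/-- node (8c), in the architect's shape -/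
theorem wr_HG (N : ℕ) [NeZero N]
    (_hind : bd_PolyIndep ℚ jq (qExpand ℚ N jq) (Nat.card (Fermat.Agent.S24.Comb.Q N))) :
    ModularCurve.FunctionFieldGeneration N :=
  bd_functionFieldGeneration N

/-- node (8c), unconditional -/
theorem wr_HG' (N : ℕ) [NeZero N] : ModularCurve.FunctionFieldGeneration N :=
  bd_functionFieldGeneration N

/-- characteristic-zero independence over any field `K` of characteristic zero (e.g. `ℂ`), in the
shape of `nm_indep_q` / the hypothesis `hind` of `wr_exists_rat_poly`: no run of the norm argument
over `ℂ` is needed. -/
theorem wr_polyIndep_charZero (N : ℕ) [NeZero N] (K : Type*) [Field K] [CharZero K] :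
    bd_PolyIndep K (jqModC K) (qExpand K N (jqModC K)) (Nat.card (Fermat.Agent.S24.Comb.Q N)) := by
  have h := bd_polyIndep_coeffMap (algebraMap ℚ K) (bd_polyIndep_rat N)
  rw [coeffMap_qExpand, ← jqModC_rat, coeffMap_jqModC] at h
  exact h

end Fermat.Agent.S28
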