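/-
S28 (Igusa), wiring node (8a): the front end's hypothesis (HC) over the prime field `ZMod ℓ`,
from an Igusa datum over a domain `R` (with `ζ` a primitive `N`-th root of unity) together with a
ring homomorphism `ρ : R →+* K` into a field of characteristic `ℓ ∤ N`.
-/
import Mathlib
import Fermat.Agent.S28.Core.Norm
import Fermat.Agent.S28.Formal.RedHom

set_option autoImplicit false

open ModularCurve Polynomial

namespace Fermat.Agent.S28

/-- primitive roots of unity in the unit group are preserved by ring homs into fields in which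
`N ≠ 0` -/
theorem wr_isPrimitiveRoot_unitsMap {R K : Type*} [CommRing R] [IsDomain R] [Field K]
    (ρ : R →+* K) {N : ℕ} [NeZero (N : K)] {ζ : Rˣ} (hζ : IsPrimitiveRoot ζ N) :
    IsPrimitiveRoot (Units.map (ρ : R →* K) ζ) N := by
  have h1 : IsPrimitiveRoot (ζ : R) N := IsPrimitiveRoot.coe_units_iff.mpr hζ
  have h2 : IsPrimitiveRoot (ρ (ζ : R)) N := rh_isPrimitiveRoot_map ρ h1
  exact IsPrimitiveRoot.coe_units_iff.mp (by simpa using h2)

/-- independence of `1, j(q^N), …, j(q^N)^(n-1)` over `K[j(q)]` for every field `K` receiving a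
homomorphism from the ring of definition of an Igusa datum, `N ≠ 0` in `K` -/
theorem wr_polyIndep_of_hom {R K : Type*} [CommRing R] [IsDomain R] [Field K] {N : ℕ} [NeZero N]
    {ζ : Rˣ} (hζ : IsPrimitiveRoot ζ N) (D : IgDatum R ζ N) (ρ : R →+* K) [NeZero (N : K)] :
    bd_PolyIndep K (jqModC K) (qExpand K N (jqModC K)) (Fintype.card D.ι) :=
  (D.map ρ).nm_indep_q (wr_isPrimitiveRoot_unitsMap ρ hζ)

/-- **(8a)**: the hypothesis (HC) of the front end over `ZMod ℓ`. -/
theorem wr_HC {R K : Type*} [CommRing R] [IsDomain R] [Field K] {N ℓ : ℕ} [NeZero N]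
    [Fact ℓ.Prime] (hℓN : ¬ ℓ ∣ N) [CharP K ℓ]
    {ζ : Rˣ} (hζ : IsPrimitiveRoot ζ N) (D : IgDatum R ζ N) (ρ : R →+* K) :
    ∀ a : Fin (Fintype.card D.ι) → (ZMod ℓ)[X],
      (∑ i, aeval (jqModC (ZMod ℓ)) (a i) * (qExpand (ZMod ℓ) N (jqModC (ZMod ℓ))) ^ (i : ℕ) = 0) →
        a = 0 := by
  have := rh_neZero_natCast hℓN K
  exact bd_HC_of_polyIndep' (K := K) ℓ N (wr_polyIndep_of_hom hζ D ρ)

end Fermat.Agent.S28
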