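import Mathlib
import Fermat.Agent.S28.Bridge.Indep

/-!
# S28 wiring, node (8b-ii): rationality of the modular polynomial

A monic polynomial `Φc ∈ ℂ[Z][X]` of `X`-degree `n` with `Φc(j, j_N) = 0` (as `q`-series), such
that `1, j_N, …, j_N^(n-1)` are linearly independent over `ℂ[j]`, has rational coefficients.
No Galois theory: rank descent for the relation `Φc(j, j_N) = 0` + divisibility in `ℚ[Z]`.
-/

set_option autoImplicit false

open ModularCurve Polynomial

namespace Fermat.Agent.S28

/-- evaluation with `HahnSeries.C` as coefficient embedding is `aeval` -/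
theorem wr_evalC_eq_aeval {R : Type*} [CommRing R] (x : LaurentSeries R) (p : R[X]) :
    Polynomial.eval₂RingHom HahnSeries.C x p = aeval x p := by
  rw [Polynomial.coe_eval₂RingHom, aeval_def]
  congr 1
  exact RingHom.ext fun c => (bd_algebraMap_eq_C c).symm

/-- splitting off the top term of a `Fin (n+1)`-indexed relation -/
theorem wr_sum_fin_succ {A : Type*} [CommRing A] (n : ℕ) (g : ℕ → A) :
    ∑ i : Fin (n + 1), g (i : ℕ) = ∑ i : Fin n, g (i : ℕ) + g n := by
  rw [Fin.sum_univ_castSucc]
  simp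

theorem wr_exists_rat_poly {N : ℕ} [NeZero N] {n : ℕ} (Φc : Polynomial (Polynomial ℂ))
    (hmonic : Φc.Monic) (hdeg : Φc.natDegree = n)
    (hroot : Φc.eval₂ (Polynomial.eval₂RingHom HahnSeries.C (jqModC ℂ))
      (qExpand ℂ N (jqModC ℂ)) = 0)
    (hind : bd_PolyIndep ℂ (jqModC ℂ) (qExpand ℂ N (jqModC ℂ)) n) :
    ∃ P : Polynomial (Polynomial ℚ), P.map (Polynomial.mapRingHom (algebraMap ℚ ℂ)) = Φc := by
  classical
  set f : ℚ →+* ℂ := algebraMap ℚ ℂ with hf
  have hfinj : Function.Injective f := f.injective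
  set xQ : LaurentSeries ℚ := jqModC ℚ with hxQ
  set yQ : LaurentSeries ℚ := qExpand ℚ N xQ with hyQ
  set xC : LaurentSeries ℂ := jqModC ℂ with hxC
  set yC : LaurentSeries ℂ := qExpand ℂ N xC with hyC
  have hx : coeffMap f xQ = xC := coeffMap_jqModC f
  have hy : coeffMap f yQ = yC := by rw [hyQ, coeffMap_qExpand, hx]
  -- the relation over `ℂ`
  have hrelC : ∑ i ∈ Finset.range (n + 1), aeval xC (Φc.coeff i) * yC ^ i = 0 := by
    rw [← hroot, Polynomial.eval₂_eq_sum_range, hdeg]
    refine Finset.sum_congr rfl fun i _ => ?_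
    rw [wr_evalC_eq_aeval]
  have hcn : Φc.coeff n = 1 := by
    rw [← hdeg]; exact hmonic.coeff_natDegree
  -- `∑_{i<n} c_i(x) y^i = - y^n`
  have hrelC' : ∑ i : Fin n, aeval xC (Φc.coeff i) * yC ^ (i : ℕ) = - yC ^ n := by
    rw [Finset.sum_range_succ, hcn, map_one, one_mul] at hrelC
    rw [Fin.sum_univ_eq_sum_range (fun i => aeval xC (Φc.coeff i) * yC ^ i) n]
    exact eq_neg_of_add_eq_zero_left hrelC
  -- dependence over `ℂ[x]` at level `n + 1`, hence over `ℚ[x]`
  have hnotC : ¬ bd_PolyIndep ℂ xC yC (n + 1) := by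
    intro h
    have h0 := h (fun i => Φc.coeff (i : ℕ)) (by
      rw [Fin.sum_univ_eq_sum_range (fun i => aeval xC (Φc.coeff i) * yC ^ i) (n + 1)]
      exact hrelC)
    have h1 := congrFun h0 (Fin.last n)
    simp only [Fin.val_last, Pi.zero_apply] at h1
    rw [hcn] at h1
    exact one_ne_zero h1
  have hnotQ : ¬ bd_PolyIndep ℚ xQ yQ (n + 1) := by
    intro h
    apply hnotC
    have := bd_polyIndep_coeffMap f h
    rwa [hx, hy] at this
  unfold bd_PolyIndep at hnotQ
  push Not at hnotQ
  obtain ⟨a, ha, hane⟩ := hnotQ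
  -- transport the rational relation to `ℂ`
  have haC : ∑ i : Fin (n + 1), aeval xC ((a i).map f) * yC ^ (i : ℕ) = 0 := by
    have := congrArg (coeffMap f) ha
    rw [map_sum, map_zero] at this
    rw [← this]
    refine Finset.sum_congr rfl fun i _ => ?_
    rw [map_mul, bd_coeffMap_aeval, map_pow, hx, hy]
  set aL : ℚ[X] := a (Fin.last n) with haL
  set A : ℂ[X] := aL.map f with hA
  have haC' : ∑ i : Fin n, aeval xC ((a i.castSucc).map f) * yC ^ (i : ℕ) = - (aeval xC A * yC ^ n) := by
    rw [Fin.sum_univ_castSucc] at haC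
    simp only [Fin.val_castSucc, Fin.val_last] at haC
    exact eq_neg_of_add_eq_zero_left haC
  -- the key identities `a_i = a_n * c_i`
  have hkey : ∀ i : Fin n, (a i.castSucc).map f = A * Φc.coeff (i : ℕ) := by
    have h0 := hind (fun i => A * Φc.coeff (i : ℕ) - (a i.castSucc).map f) (by
      simp only [map_sub, map_mul, sub_mul, Finset.sum_sub_distrib]
      rw [haC']
      have : ∑ i : Fin n, aeval xC A * aeval xC (Φc.coeff (i : ℕ)) * yC ^ (i : ℕ) =
          aeval xC A * ∑ i : Fin n, aeval xC (Φc.coeff (i : ℕ)) * yC ^ (i : ℕ) := by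
        rw [Finset.mul_sum]
        exact Finset.sum_congr rfl fun i _ => by ring
      rw [this, hrelC']
      ring)
    intro i
    have := congrFun h0 i
    simp only [Pi.zero_apply, sub_eq_zero] at this
    exact this.symm
  -- `a_n ≠ 0`
  have hA0 : A ≠ 0 := by
    intro hA0
    apply hane
    funext i
    refine Fin.lastCases ?_ (fun i => ?_) i
    · have : aL.map f = 0 := hA0
      exact (Polynomial.map_eq_zero_iff hfinj).mp this
    · have := hkey i
      rw [hA0, zero_mul] at this
      exact (Polynomial.map_eq_zero_iff hfinj).mp this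
  have haL0 : aL ≠ 0 := by
    intro h
    apply hA0
    rw [hA, h, Polynomial.map_zero]
  -- divisibility over `ℚ`
  have hdvd : ∀ i : Fin n, aL ∣ a i.castSucc := by
    intro i
    rw [← Polynomial.map_dvd_map' f]
    exact ⟨_, hkey i⟩
  choose qf hqf using hdvd
  have hq : ∀ i : Fin n, (qf i).map f = Φc.coeff (i : ℕ) := by
    intro i
    have h1 := hkey i
    rw [hqf i, Polynomial.map_mul] at h1
    exact mul_left_cancel₀ hA0 h1
  -- the rational polynomial
  set qn : ℕ → ℚ[X] := fun i => if hi : i < n then qf ⟨i, hi⟩ else 0 with hqn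
  refine ⟨X ^ n + ∑ i ∈ Finset.range n, C (qn i) * X ^ i, ?_⟩
  rw [Polynomial.map_add, Polynomial.map_pow, Polynomial.map_X, Polynomial.map_sum]
  conv_rhs => rw [hmonic.as_sum, hdeg]
  congr 1
  refine Finset.sum_congr rfl fun i hi => ?_
  have hi' : i < n := Finset.mem_range.mp hi
  rw [Polynomial.map_mul, Polynomial.map_pow, Polynomial.map_X, Polynomial.map_C]
  congr 2
  simp only [hqn, dif_pos hi', Polynomial.coe_mapRingHom]
  exact hq ⟨i, hi'⟩

end Fermat.Agent.S28
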